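import Fermat.Agent.S36.Geo.Coord.Defs

/-! # S36/Geo/Coord : existence of `a`, `Q`, `G₀` -/

set_option autoImplicit false

namespace Fermat.Agent.S36.Geo

open AlgebraicCurve Fermat.Agent.Lib.RR Fermat.Agent.GAL.RED Fermat.Agent.S36.Val

variable {K E k Eb : Type*} [Field K] [Field E] [Algebra K E] [Field k] [Field Eb] [Algebra k Eb]
  [IsFF K E] [IsAlgClosed K] [IsFF k Eb] [IsAlgClosed k]
  {R : RedData K E k Eb} {r : Place K E → Place k Eb} {SS : Finset (Place k Eb)}
  {xe : Place k Eb → E} {ρ : K} {j : E}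

omit [IsAlgClosed K] in
theorem Exists_divOf_eq (y : E) :
    divOf (K := K) y = poleDiv (K := K) y⁻¹ - poleDiv (K := K) y := by
  ext P
  rw [Finsupp.sub_apply, poleDiv_apply, poleDiv_apply, divOf_apply, P.ord_inv, neg_neg]
  rcases le_total 0 (P.ord y) with h | h
  · rw [max_eq_left h, max_eq_right (by omega)]
    ring
  · rw [max_eq_right h, max_eq_left (by omega)]
    ring

omit [IsAlgClosed K] in
theorem Exists_poleDiv_nonneg (y : E) : 0 ≤ poleDiv (K := K) y := by
  intro P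
  rw [poleDiv_apply]
  exact le_max_right _ _

/-- no cancellation if the degrees of the polar divisors agree (copy of `DR.Conc.Level_map_poleDiv`,
to keep the imports light). -/
theorem Exists_map_poleDiv (hr : IsRedMap R r) {y : E} (hy : R.red y ≠ 0)
    (hdeg : Divisor.degree (poleDiv (K := K) y) = Divisor.degree (poleDiv (K := k) (R.red y))) :
    Finsupp.mapDomain r (poleDiv (K := K) y) = poleDiv (K := k) (R.red y) ∧
      Finsupp.mapDomain r (poleDiv (K := K) y⁻¹) = poleDiv (K := k) (R.red y)⁻¹ := by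
  have h1 := hr.map_divOf y hy
  rw [Exists_divOf_eq, Exists_divOf_eq, mapDomain_sub'] at h1
  have hZ := mapDomain_nonneg r (Exists_poleDiv_nonneg (K := K) y⁻¹)
  have hP := mapDomain_nonneg r (Exists_poleDiv_nonneg (K := K) y)
  have hle : 0 ≤ Finsupp.mapDomain r (poleDiv (K := K) y) - poleDiv (K := k) (R.red y) := by
    intro Q
    have e := DFunLike.congr_fun h1 Q
    have hZQ := hZ Q
    have hPQ := hP Q
    simp only [Finsupp.sub_apply, Finsupp.coe_zero, Pi.zero_apply, poleDiv_apply,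
      Place.ord_inv, neg_neg] at e hZQ hPQ ⊢
    rcases le_total 0 (Q.ord (R.red y)) with h | h
    · rw [max_eq_right (by omega : -Q.ord (R.red y) ≤ 0)]
      omega
    · rw [max_eq_right h, max_eq_left (by omega : 0 ≤ -Q.ord (R.red y))] at e
      rw [max_eq_left (by omega : 0 ≤ -Q.ord (R.red y))]
      omega
  have h0 := eq_zero_of_nonneg_of_degree hle (by rw [map_sub, degree_mapDomain, hdeg, sub_self])
  have h2 := sub_eq_zero.mp h0
  refine ⟨h2, ?_⟩
  rw [h2] at h1
  exact sub_left_injective h1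

/-- lifting a section of `r_* D` with exact orders on a given finite set. -/
theorem Exists_lift (hr : IsRedMap R r) (D : Divisor K E)
    (h3 : 3 * (genusFF K E : ℤ) ≤ Divisor.degree D)
    (h2 : 2 * (genusFF k Eb : ℤ) ≤ Divisor.degree D) (Z : Finset (Place k Eb)) :
    ∃ f : E, f ∈ riemannRochSpace D ∧ f ∈ R.O ∧
      ∀ e ∈ Z, e.ord (R.red f) = - Finsupp.mapDomain r D e := by
  obtain ⟨fb, hfb0, hnn, hZ⟩ := S37.exists_avoid (Finsupp.mapDomain r D)
    (by rw [degree_mapDomain]; exact h2) Z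
  have hmem : fb ∈ riemannRochSpace (Finsupp.mapDomain r D) :=
    mem_L_iff.2 (Or.inr (by rwa [add_comm]))
  rw [← hr.redSub_L D h3] at hmem
  obtain ⟨f, hfL, hfO, rfl⟩ := R.mem_redSub.1 hmem
  refine ⟨f, hfL, hfO, fun e he => ?_⟩
  have := hZ e he
  rw [Finsupp.add_apply, divOf_apply] at this
  omega

/-- **(CO1)**
PROOF. `P₀ e` from `Taylor.exists_origin hr (h.disc e he)` (`Classical.choice`; any place for `e ∉ SS`; note `e ↦ P₀ e` is injective on `SS` since `r (P₀ e) = e`).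
`r_* (j)_∞ = (j̄)_∞` (`DR.Conc.Level_map_poleDiv hr _ h.j_deg`, file `DR/Conc/Level.lean`; copy its 30 lines if the import is too heavy),
`r_* (single (P₀ e) 1) = single e 1` (`Finsupp.mapDomain_single`, `Finsupp.mapDomain_finset_sum`, `mapDomain_add`, `mapDomain_zsmul'`/`mapDomain_smul`).
Let `d = deg (j)_∞ > 0` (`DR.Abs.degree_poleDiv_pos` on `Eb` and `h.j_deg`), `a := 3 g(E) + 2 g(Eb) + #SS + 1`, `D± := a (j)_∞ ± ∑ P₀ e`, of degree `≥ 3 g(E)` and
`r_* D±` of degree `≥ 2 g(Eb)`.  `S37.exists_avoid (r_* D±) _ SS` gives `f̄ ≠ 0` in `L(r_* D±)` with `ordₑ f̄ = - (r_* D±)(e) = ∓ 1` for `e ∈ SS`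
(`(j̄)_∞ (e) = 0` by `h.j_reg`).  `hr.redSub_L D±` lifts `f̄` to `f ∈ L(D±) ∩ R.O` (`R.mem_redSub`). -/
theorem exists_isCoord (hr : IsRedMap R r) (h : CoordHyp R r SS xe ρ j) :
    ∃ (a : ℕ) (Q G₀ : E) (P₀ : Place k Eb → Place K E), IsCoord R r SS xe j a Q G₀ P₀ := by
  classical
  have hex : ∀ e : Place k Eb, ∃ P : Place K E, e ∈ SS → (r P = e ∧ P.ord (xe e) = 1) := by
    intro e
    by_cases he : e ∈ SS
    · obtain ⟨P, h1, h2⟩ := Taylor.exists_origin hr (h.disc e he)
      exact ⟨P, fun _ => ⟨h1, h2⟩⟩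
    · obtain ⟨P, -⟩ := hr.surjective e
      exact ⟨P, fun h' => absurd h' he⟩
  choose P₀ hP₀ using hex
  have hjne : R.red j ≠ 0 := fun h0 => h.j_nonconst ⟨0, by rw [map_zero, h0]⟩
  have hmap := (Exists_map_poleDiv hr hjne h.j_deg).1
  have hdpos : 0 < Divisor.degree (poleDiv (K := K) j) := by
    rw [h.j_deg]
    exact DR.Abs.degree_poleDiv_pos h.j_nonconst
  set a : ℕ := 3 * genusFF K E + 2 * genusFF k Eb + SS.card + 1 with ha
  set Sg : Divisor K E := ∑ e ∈ SS, Finsupp.single (P₀ e) (1 : ℤ) with hSg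
  have hSgdeg : Divisor.degree Sg = SS.card := by
    rw [hSg, map_sum, Finset.sum_congr rfl (fun e _ => by
      show Divisor.degree (pt (P₀ e)) = 1
      rw [degree_pt, deg_eq_one]; rfl)]
    simp
  have hSgmap : ∀ e ∈ SS, Finsupp.mapDomain r Sg e = 1 := by
    intro e he
    rw [hSg, Finsupp.mapDomain_finsetSum, Finsupp.finsetSum_apply, Finset.sum_eq_single e]
    · rw [Finsupp.mapDomain_single, (hP₀ e he).1, Finsupp.single_eq_same]
    · intro e' he' hne
      rw [Finsupp.mapDomain_single, (hP₀ e' he').1, Finsupp.single_eq_of_ne hne.symm]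
    · intro h'
      exact absurd he h'
  have hjmap : ∀ e ∈ SS, Finsupp.mapDomain r (a • poleDiv (K := K) j) e = 0 := by
    intro e he
    rw [Finsupp.mapDomain_smul, hmap, Finsupp.smul_apply, poleDiv_apply,
      max_eq_right (by have := h.j_reg e he; omega), smul_zero]
  have hadeg : (a : ℤ) ≤ Divisor.degree (a • poleDiv (K := K) j) := by
    rw [map_nsmul, nsmul_eq_mul]
    nlinarith
  have hacast : (a : ℤ) = 3 * genusFF K E + 2 * genusFF k Eb + SS.card + 1 := by
    rw [ha]; push_cast; ring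
  obtain ⟨Q, hQL, hQO, hQ⟩ := Exists_lift hr (a • poleDiv (K := K) j + Sg)
    (by rw [map_add, hSgdeg]; omega) (by rw [map_add, hSgdeg]; omega) SS
  obtain ⟨G₀, hGL, hGO, hG⟩ := Exists_lift hr (a • poleDiv (K := K) j - Sg)
    (by rw [map_sub, hSgdeg]; omega) (by rw [map_sub, hSgdeg]; omega) SS
  refine ⟨a, Q, G₀, P₀, ⟨by omega, hP₀, hQL, hQO, fun e he => ?_, hGL, hGO, fun e he => ?_⟩⟩
  · rw [hQ e he, Finsupp.mapDomain_add, Finsupp.add_apply, hjmap e he, hSgmap e he]
    norm_num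
  · rw [hG e he, mapDomain_sub', Finsupp.sub_apply, hjmap e he, hSgmap e he]
    norm_num

end Fermat.Agent.S36.Geo
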