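import Fermat.Agent.S36.Val.Disc
import Fermat.Agent.S37.BPF
import Fermat.Agent.DR.Abs.Bipole

/-!
# S36/Geo/Coord : the coordinate of the model `C ∪ ⋃ₑ ℓₑ` of a curve with good reduction.  Definitions.

`E / K` a function field with good reduction `R`, `r` (`IsRedMap R r`); `SS` a finite set of points of the reduction `C`; for `e ∈ SS` a coordinate `xe e` on the
residue disc of `e` (`DiscHyp R r e (xe e) ρ`), `P₀ e` its zero, `ℓₑ` the Gauss point of the disc `|xe e| ≤ |ρ|` (`IsDiscVal`), `yₑ = xe e / ρ`.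
`j : E` an integral function with `deg (j)_∞ = deg (j̄)_∞`, regular at the points of `SS`.

We choose `a` large, `Q ∈ L(a (j)_∞ + ∑ P₀ e)`, `G₀ ∈ L(a (j)_∞ - ∑ P₀ e)` integral with `ordₑ Q̄ = -1`, `ordₑ Ḡ₀ = 1`, and put `x₁ := j ^ a + ρ Q`.
* on `C`:   `x̄₁ = j̄ ^ a`;  `Q` is integral, `Q̄` has a pole at every `e ∈ SS`;  `G₀ / ρ` is not integral;
* on `ℓₑ`:  `x̄₁ = c̄ₑ + ε̄ₑ / ȳₑ`;  `Q` is not integral;  `G₀ / ρ ↦ ε̄'ₑ ȳₑ`;
* `(x₁)_∞ = a (j)_∞ + ∑ P₀ e`.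
-/

set_option autoImplicit false

namespace Fermat.Agent.S36.Geo

open AlgebraicCurve Fermat.Agent.Lib.RR Fermat.Agent.GAL.RED Fermat.Agent.S36.Val

variable {K E k Eb : Type*} [Field K] [Field E] [Algebra K E] [Field k] [Field Eb] [Algebra k Eb]

/-- The hypotheses. -/
structure CoordHyp [HasPrincipalDivisors K E] [HasPrincipalDivisors k Eb] (R : RedData K E k Eb)
    (r : Place K E → Place k Eb) (SS : Finset (Place k Eb)) (xe : Place k Eb → E) (ρ : K) (j : E) :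
    Prop where
  disc : ∀ e ∈ SS, DiscHyp R r e (xe e) ρ
  j_nonconst : R.red j ∉ Set.range (algebraMap k Eb)
  j_deg : Divisor.degree (poleDiv (K := K) j) = Divisor.degree (poleDiv (K := k) (R.red j))
  j_reg : ∀ e ∈ SS, 0 ≤ e.ord (R.red j)
  ρ_ne : ρ ≠ 0
  ρ_small : ρ ∈ R.A.nonunits

/-- The choice of `a`, `Q`, `G₀`, `P₀`. -/
structure IsCoord [HasPrincipalDivisors K E] [HasPrincipalDivisors k Eb] (R : RedData K E k Eb)
    (r : Place K E → Place k Eb) (SS : Finset (Place k Eb)) (xe : Place k Eb → E) (j : E)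
    (a : ℕ) (Q G₀ : E) (P₀ : Place k Eb → Place K E) : Prop where
  a_pos : 0 < a
  origin : ∀ e ∈ SS, r (P₀ e) = e ∧ (P₀ e).ord (xe e) = 1
  Q_mem_L : Q ∈ riemannRochSpace (a • poleDiv (K := K) j + ∑ e ∈ SS, Finsupp.single (P₀ e) (1 : ℤ))
  Q_mem : Q ∈ R.O
  Q_ord : ∀ e ∈ SS, e.ord (R.red Q) = -1
  G_mem_L : G₀ ∈ riemannRochSpace (a • poleDiv (K := K) j - ∑ e ∈ SS, Finsupp.single (P₀ e) (1 : ℤ))
  G_mem : G₀ ∈ R.O
  G_ord : ∀ e ∈ SS, e.ord (R.red G₀) = 1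

/-- The coordinate `x₁ = j ^ a + ρ Q`. -/
def coordOf (ρ : K) (j : E) (a : ℕ) (Q : E) : E := j ^ a + algebraMap K E ρ * Q

end Fermat.Agent.S36.Geo
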