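import Fermat.Agent.S36.Geo.Coord.Main

/-! # S36/Geo/Coord : on the components `ℓₑ` -/

set_option autoImplicit false

namespace Fermat.Agent.S36.Geo

open AlgebraicCurve Fermat.Agent.Lib.RR Fermat.Agent.GAL.RED Fermat.Agent.S36.Val

variable {K E k Eb : Type*} [Field K] [Field E] [Algebra K E] [Field k] [Field Eb] [Algebra k Eb]
  [IsFF K E] [IsAlgClosed K] [IsFF k Eb] [IsAlgClosed k]
  {R : RedData K E k Eb} {r : Place K E → Place k Eb} {SS : Finset (Place k Eb)}
  {xe : Place k Eb → E} {ρ : K} {j : E} {a : ℕ} {Q G₀ : E} {P₀ : Place k Eb → Place K E}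

/-- **(CO8)** a function of `discRing` is congruent to a constant of `A` on `ℓₑ`; the constant is a unit if the reduction does not vanish at `e`.
PROOF. `γ` := a lift to `A` of `ev e (R.red f)` (`ord_red_nonneg_of_mem_discRing`, `R.resA_surjective`); `f - γ ∈ discRing` has a reduction vanishing at `e`:
`IsDiscVal.mem_nonunits`. -/
theorem exists_const_of_mem_discRing (hr : IsRedMap R r) {e : Place k Eb} {x : E}
    (hd : DiscHyp R r e x ρ) {O : ValuationSubring E} (hO : IsDiscVal R r e x ρ O) {f : E}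
    (hf : f ∈ discRing R r e) :
    ∃ γ ∈ R.A, f - algebraMap K E γ ∈ O.nonunits ∧
      (R.red f ≠ 0 → e.ord (R.red f) = 0 → γ ∉ R.A.nonunits) := by
  obtain ⟨P₀, hP₀, -⟩ := Taylor.exists_origin hr hd
  obtain ⟨γ, hγA, hγ⟩ := exists_value hr hf hP₀
  have hsub : f - algebraMap K E γ ∈ discRing R r e :=
    (discRing R r e).sub_mem hf (Taylor.algebraMap_mem hγA)
  have hval : f - algebraMap K E γ = algebraMap K E 0 ∨
      0 < P₀.ord (f - algebraMap K E γ - algebraMap K E 0) := by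
    rw [map_zero, sub_zero]
    rcases hγ with hγ | hγ
    · exact Or.inl (sub_eq_zero.mpr hγ)
    · exact Or.inr hγ
  refine ⟨γ, hγA, hO.mem_nonunits hr hd hsub
    ((value_small_iff hr hsub hP₀ hval).mp Taylor.zero_mem_nonunits), fun h1 h2 h3 => ?_⟩
  rcases (value_small_iff hr hf hP₀ hγ).mp h3 with h4 | h4
  · exact h1 h4
  · rw [h2] at h4
    exact lt_irrefl _ h4

/-- **(CO9)** on `ℓₑ`: `ρ Q yₑ ≡ ε`, `ε` a unit of `A`  (`yₑ = xe e / ρ`, so `ρ Q yₑ = xe e * Q ∈ discRing`: regular at `P₀ e` since `ord (xe e) = 1`, `ord Q ≥ -1`;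
its reduction `x̄ₑ Q̄` has order `1 - 1 = 0` at `e`; (CO8)). -/
theorem IsCoord.Q_disc (hr : IsRedMap R r) (h : CoordHyp R r SS xe ρ j)
    (c : IsCoord R r SS xe j a Q G₀ P₀) {e : Place k Eb} (he : e ∈ SS) {O : ValuationSubring E}
    (hO : IsDiscVal R r e (xe e) ρ O) :
    ∃ ε ∈ R.A, ε ∉ R.A.nonunits ∧ xe e * Q - algebraMap K E ε ∈ O.nonunits := by
  classical
  have hd := h.disc e he
  have hx0 : xe e ≠ 0 := Taylor.x_ne hd
  have hrQ : R.red Q ≠ 0 := by
    intro h0
    have := c.Q_ord e he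
    rw [h0, Place.ord_zero] at this
    omega
  have hQ0 : Q ≠ 0 := R.ne_zero_of_red_ne_zero hrQ
  have hmem : xe e * Q ∈ discRing R r e := by
    refine ⟨R.O.mul_mem _ _ (R.mem_of_red_ne_zero hd.red_ne) c.Q_mem, fun P hP => ?_⟩
    rw [P.ord_mul hx0 hQ0]
    have h1 := ((mem_riemannRochSpace_iff.mp c.Q_mem_L) P).resolve_left hQ0
    have hj : 0 ≤ P.ord j := (h.ord_j hr P).1 (by rw [hP]; exact h.j_reg e he)
    rw [Finsupp.add_apply, Finsupp.smul_apply, poleDiv_apply, max_eq_right (by omega), smul_zero,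
      zero_add, Finsupp.finsetSum_apply] at h1
    by_cases hPP : P = P₀ e
    · have h2 : ∑ e' ∈ SS, (Finsupp.single (P₀ e') (1 : ℤ)) P = 1 := by
        rw [Finset.sum_eq_single e]
        · rw [hPP, Finsupp.single_eq_same]
        · intro e' he' hne
          rw [Finsupp.single_apply, if_neg]
          intro h3
          apply hne
          rw [← (c.origin e' he').1, h3, hP]
        · intro h3
          exact absurd he h3
      rw [h2] at h1
      have h3 : P.ord (xe e) = 1 := by rw [hPP]; exact (c.origin e he).2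
      omega
    · have h2 : ∑ e' ∈ SS, (Finsupp.single (P₀ e') (1 : ℤ)) P = 0 := by
        refine Finset.sum_eq_zero fun e' he' => ?_
        rw [Finsupp.single_apply, if_neg]
        intro h3
        apply hPP
        have h4 : e' = e := by rw [← (c.origin e' he').1, h3, hP]
        rw [← h3, h4]
      rw [h2] at h1
      have h3 := hd.reg P hP
      omega
  have hred : R.red (xe e * Q) = R.red (xe e) * R.red Q :=
    R.red_mul (R.mem_of_red_ne_zero hd.red_ne) c.Q_mem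
  obtain ⟨ε, hεA, hε, hεu⟩ := exists_const_of_mem_discRing hr hd hO hmem
  refine ⟨ε, hεA, hεu ?_ ?_, hε⟩
  · rw [hred]
    exact mul_ne_zero hd.red_ne hrQ
  · rw [hred, e.ord_mul hd.red_ne hrQ, hd.ord_e, c.Q_ord e he]
    norm_num

/-- **(CO10)** on `ℓₑ`: `Q` is not integral (`xe e * Q` is a unit of `O` by (CO9) and `xe e = ρ yₑ ∈ 𝔪_O`). -/
theorem IsCoord.Q_not_mem (hr : IsRedMap R r) (h : CoordHyp R r SS xe ρ j)
    (c : IsCoord R r SS xe j a Q G₀ P₀) {e : Place k Eb} (he : e ∈ SS) {O : ValuationSubring E}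
    (hO : IsDiscVal R r e (xe e) ρ O) : Q ∉ O := by
  intro hQ
  obtain ⟨ε, -, hεu, hε⟩ := c.Q_disc hr h he hO
  apply hεu
  rw [← Struct_val_algebraMap_lt hO]
  have hρ : algebraMap K E ρ ≠ 0 := by simpa using h.ρ_ne
  have hxy : xe e = algebraMap K E ρ * ((algebraMap K E ρ)⁻¹ * xe e) := by
    rw [← mul_assoc, mul_inv_cancel₀ hρ, one_mul]
  have h1 : O.valuation (xe e * Q) < 1 := by
    rw [hxy, map_mul, map_mul]
    have h1 := (Struct_val_algebraMap_lt hO ρ).mpr h.ρ_small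
    have h2 := Struct_val_y_le hO
    have h3 : O.valuation Q ≤ 1 := (ValuationSubring.valuation_le_one_iff _ _).mpr hQ
    calc O.valuation (algebraMap K E ρ) * O.valuation ((algebraMap K E ρ)⁻¹ * xe e) * O.valuation Q
        ≤ O.valuation (algebraMap K E ρ) * 1 * 1 := by gcongr
      _ < 1 := by simpa using h1
  have h2 : O.valuation (xe e * Q - algebraMap K E ε) < 1 :=
    (ValuationSubring.mem_nonunits_iff O).mp hε
  have h3 : algebraMap K E ε = xe e * Q - (xe e * Q - algebraMap K E ε) := by ring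
  rw [h3]
  exact Valuation.map_sub_lt _ h1 h2

omit [Algebra K E] [IsFF K E] [IsAlgClosed K] in
theorem CoordDisc5_mul_mem_nonunits {O : ValuationSubring E} {u w : E} (hu : u ∈ O.nonunits)
    (hw : w ∈ O) : u * w ∈ O.nonunits := by
  rw [ValuationSubring.mem_nonunits_iff] at hu ⊢
  have hw' := (O.valuation_le_one_iff w).2 hw
  rw [map_mul]
  calc O.valuation u * O.valuation w ≤ O.valuation u * 1 := by gcongr
    _ = O.valuation u := mul_one _
    _ < 1 := hu

omit [Algebra K E] [IsFF K E] [IsAlgClosed K] in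
theorem CoordDisc5_add_mem_nonunits {O : ValuationSubring E} {u w : E} (hu : u ∈ O.nonunits)
    (hw : w ∈ O.nonunits) : u + w ∈ O.nonunits := by
  rw [ValuationSubring.mem_nonunits_iff] at hu hw ⊢
  exact Valuation.map_add_lt _ hu hw

omit [Algebra K E] [IsFF K E] [IsAlgClosed K] in
theorem CoordDisc5_mem_of_mem_nonunits {O : ValuationSubring E} {u : E} (hu : u ∈ O.nonunits) :
    u ∈ O := by
  rw [ValuationSubring.mem_nonunits_iff] at hu
  exact (O.valuation_le_one_iff u).1 hu.le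

theorem CoordDisc5_j_mem (hr : IsRedMap R r) (h : CoordHyp R r SS xe ρ j) {e : Place k Eb}
    (he : e ∈ SS) : j ∈ discRing R r e := by
  refine ⟨R.mem_of_red_ne_zero ?_, fun P hP => (h.ord_j hr P).1 (by rw [hP]; exact h.j_reg e he)⟩
  intro h0
  exact h.j_nonconst ⟨0, by rw [map_zero, h0]⟩

theorem CoordDisc5_G_ord (hr : IsRedMap R r) (h : CoordHyp R r SS xe ρ j)
    (c : IsCoord R r SS xe j a Q G₀ P₀) {e : Place k Eb} (he : e ∈ SS) (P : Place K E)
    (hP : r P = e) (hG0 : G₀ ≠ 0) :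
    ∑ e' ∈ SS, (Finsupp.single (P₀ e') (1 : ℤ)) P ≤ P.ord G₀ := by
  have h1 := (mem_riemannRochSpace_iff.1 c.G_mem_L P).resolve_left hG0
  have h2 : 0 ≤ P.ord j := (CoordDisc5_j_mem hr h he).2 P hP
  rw [Finsupp.sub_apply, Finsupp.smul_apply, poleDiv_apply, max_eq_right (by omega), smul_zero,
    zero_sub, neg_neg, Finsupp.finsetSum_apply] at h1
  exact h1

/-- **(CO11)** on `ℓₑ`: `G₀ / ρ ≡ ε' yₑ`, `ε'` a unit of `A`  (`G₀ / xe e ∈ discRing` by `Taylor.div_x_mem`, its reduction has order `0` at `e`; (CO8); multiply by `yₑ ∈ O`). -/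
theorem IsCoord.G_disc (hr : IsRedMap R r) (h : CoordHyp R r SS xe ρ j)
    (c : IsCoord R r SS xe j a Q G₀ P₀) {e : Place k Eb} (he : e ∈ SS) {O : ValuationSubring E}
    (hO : IsDiscVal R r e (xe e) ρ O) :
    ∃ ε' ∈ R.A, ε' ∉ R.A.nonunits ∧
      (algebraMap K E ρ)⁻¹ * G₀ - algebraMap K E ε' * ((algebraMap K E ρ)⁻¹ * xe e) ∈ O.nonunits := by
  classical
  have hd := h.disc e he
  obtain ⟨hP₀, hx⟩ := c.origin e he
  have hx0 : xe e ≠ 0 := Taylor.x_ne hd
  have hrG : R.red G₀ ≠ 0 := by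
    intro h0
    have := c.G_ord e he
    rw [h0, Place.ord_zero] at this
    exact zero_ne_one this
  have hG0 : G₀ ≠ 0 := R.ne_zero_of_red_ne_zero hrG
  have hterm : ∀ (P : Place K E), ∀ e' ∈ SS, (0 : ℤ) ≤ (Finsupp.single (P₀ e') (1 : ℤ)) P := by
    intro P e' _
    rw [Finsupp.single_apply]
    split_ifs <;> norm_num
  have hG : G₀ ∈ discRing R r e :=
    ⟨c.G_mem, fun P hP => le_trans (Finset.sum_nonneg (hterm P)) (CoordDisc5_G_ord hr h c he P hP hG0)⟩
  have hGP : 0 < (P₀ e).ord G₀ := by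
    have h1 := CoordDisc5_G_ord hr h c he (P₀ e) hP₀ hG0
    have h2 := Finset.single_le_sum (f := fun e' => (Finsupp.single (P₀ e') (1 : ℤ)) (P₀ e))
      (hterm (P₀ e)) he
    simp only [Finsupp.single_eq_same] at h2
    omega
  have hdiv := Taylor.div_x_mem hr hd hP₀ hx hG (Or.inr hGP)
  have hred : R.red (G₀ / xe e) = R.red G₀ / R.red (xe e) := R.red_div c.G_mem hd.red_ne
  obtain ⟨ε', hε', hsub, hunit⟩ := exists_const_of_mem_discRing hr hd hO hdiv
  refine ⟨ε', hε', hunit ?_ ?_, ?_⟩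
  · rw [hred]
    exact div_ne_zero hrG hd.red_ne
  · rw [hred, ord_div e hrG hd.red_ne, c.G_ord e he, hd.ord_e, sub_self]
  · have h3 := CoordDisc5_mul_mem_nonunits hsub hO.y_mem
    have e1 : (G₀ / xe e - algebraMap K E ε') * ((algebraMap K E ρ)⁻¹ * xe e) =
        (algebraMap K E ρ)⁻¹ * G₀ - algebraMap K E ε' * ((algebraMap K E ρ)⁻¹ * xe e) := by
      field_simp
    rwa [e1] at h3

/-- **(CO12)** on `ℓₑ`: `(x₁ - γ) yₑ ≡ ε`, i.e. `x̄₁ = γ̄ + ε̄ / ȳₑ`; `x₁ ∈ O`.
(`j ^ a ∈ discRing` by (CO3), (CO8) gives `γ`; `(x₁ - γ) yₑ = (j ^ a - γ) yₑ + xe e * Q`; `yₑ` is a unit of `O` by `hO.y_trans` with `G = X`.) -/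
theorem IsCoord.coord_disc (hr : IsRedMap R r) (h : CoordHyp R r SS xe ρ j)
    (c : IsCoord R r SS xe j a Q G₀ P₀) {e : Place k Eb} (he : e ∈ SS) {O : ValuationSubring E}
    (hO : IsDiscVal R r e (xe e) ρ O) :
    coordOf ρ j a Q ∈ O ∧ ∃ γ ∈ R.A, ∃ ε ∈ R.A, ε ∉ R.A.nonunits ∧
      (coordOf ρ j a Q - algebraMap K E γ) * ((algebraMap K E ρ)⁻¹ * xe e) - algebraMap K E ε
        ∈ O.nonunits := by
  have hd := h.disc e he
  have hρ0 : algebraMap K E ρ ≠ 0 := by
    rw [Ne, map_eq_zero]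
    exact h.ρ_ne
  have hAO : ∀ γ ∈ R.A, algebraMap K E γ ∈ O := by
    intro γ hγ
    rw [← hO.comap] at hγ
    exact hγ
  have hja : j ^ a ∈ discRing R r e := Subring.pow_mem _ (CoordDisc5_j_mem hr h he) a
  obtain ⟨γ, hγ, hsub, -⟩ := exists_const_of_mem_discRing hr hd hO hja
  obtain ⟨ε, hε, hεu, hQ⟩ := c.Q_disc hr h he hO
  set y : E := (algebraMap K E ρ)⁻¹ * xe e with hy
  have hmain : (coordOf ρ j a Q - algebraMap K E γ) * y - algebraMap K E ε ∈ O.nonunits := by
    have h3 := CoordDisc5_add_mem_nonunits (CoordDisc5_mul_mem_nonunits hsub hO.y_mem) hQ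
    have e1 : (j ^ a - algebraMap K E γ) * ((algebraMap K E ρ)⁻¹ * xe e) +
        (xe e * Q - algebraMap K E ε) =
        (coordOf ρ j a Q - algebraMap K E γ) * y - algebraMap K E ε := by
      rw [hy, coordOf]
      field_simp
      ring
    rwa [e1] at h3
  refine ⟨?_, γ, hγ, ε, hε, hεu, hmain⟩
  have hyu : y ∉ O.nonunits := by
    have h4 := hO.y_trans Polynomial.X ⟨fun i => ?_, 1, ?_⟩
    · rwa [Polynomial.aeval_X] at h4
    · rw [Polynomial.coeff_X]
      split_ifs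
      · exact R.A.one_mem
      · exact R.A.zero_mem
    · rw [Polynomial.coeff_X_one, ValuationSubring.mem_nonunits_iff, map_one]
      exact lt_irrefl _
  have hyinv : y⁻¹ ∈ O := by
    rw [Basic_mem_nonunits_iff, not_or, not_not] at hyu
    exact hyu.2
  have hy0 : y ≠ 0 := by
    rw [Basic_mem_nonunits_iff, not_or] at hyu
    exact hyu.1
  have h5 : (coordOf ρ j a Q - algebraMap K E γ) * y ∈ O := by
    have := O.add_mem _ _ (CoordDisc5_mem_of_mem_nonunits hmain) (hAO ε hε)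
    rwa [sub_add_cancel] at this
  have h6 : coordOf ρ j a Q - algebraMap K E γ ∈ O := by
    have := O.mul_mem _ _ h5 hyinv
    rwa [mul_assoc, mul_inv_cancel₀ hy0, mul_one] at this
  have := O.add_mem _ _ h6 (hAO γ hγ)
  rwa [sub_add_cancel] at this

end Fermat.Agent.S36.Geo
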