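import Fermat.Agent.S36.Geo.Coord.Defs

/-! # S36/Geo/Coord : on the main component `C`, and the poles of `x₁` -/

set_option autoImplicit false

namespace Fermat.Agent.S36.Geo

open AlgebraicCurve Fermat.Agent.Lib.RR Fermat.Agent.GAL.RED Fermat.Agent.S36.Val

variable {K E k Eb : Type*} [Field K] [Field E] [Algebra K E] [Field k] [Field Eb] [Algebra k Eb]
  [IsFF K E] [IsAlgClosed K] [IsFF k Eb] [IsAlgClosed k]
  {R : RedData K E k Eb} {r : Place K E → Place k Eb} {SS : Finset (Place k Eb)}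
  {xe : Place k Eb → E} {ρ : K} {j : E} {a : ℕ} {Q G₀ : E} {P₀ : Place k Eb → Place K E}

section CoordMainHelpers

variable {K' F' k' Fb' : Type*} [Field K'] [Field F'] [Algebra K' F'] [Field k'] [Field Fb']
  [Algebra k' Fb']

theorem CoordMain_divOf_eq [HasPrincipalDivisors K' F'] (y : F') :
    divOf (K := K') y = poleDiv (K := K') y⁻¹ - poleDiv (K := K') y := by
  ext P
  rw [Finsupp.sub_apply, poleDiv_apply, poleDiv_apply, divOf_apply, P.ord_inv, neg_neg]
  rcases le_total 0 (P.ord y) with h | h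
  · rw [max_eq_left h, max_eq_right (by omega)]
    ring
  · rw [max_eq_right h, max_eq_left (by omega)]
    ring

theorem CoordMain_poleDiv_nonneg [HasPrincipalDivisors K' F'] (y : F') :
    0 ≤ poleDiv (K := K') y := by
  intro P
  rw [poleDiv_apply]
  exact le_max_right _ _

theorem CoordMain_map_poleDiv [IsFF K' F'] [IsAlgClosed K'] [IsFF k' Fb'] [IsAlgClosed k']
    {R : RedData K' F' k' Fb'} {r : Place K' F' → Place k' Fb'}
    (hr : IsRedMap R r) {y : F'} (hy : R.red y ≠ 0)
    (hdeg : Divisor.degree (poleDiv (K := K') y) = Divisor.degree (poleDiv (K := k') (R.red y))) :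
    Finsupp.mapDomain r (poleDiv (K := K') y) = poleDiv (K := k') (R.red y) ∧
      Finsupp.mapDomain r (poleDiv (K := K') y⁻¹) = poleDiv (K := k') (R.red y)⁻¹ := by
  have h1 := hr.map_divOf y hy
  rw [CoordMain_divOf_eq, CoordMain_divOf_eq, mapDomain_sub'] at h1
  have hZ := mapDomain_nonneg r (CoordMain_poleDiv_nonneg (K' := K') y⁻¹)
  have hP := mapDomain_nonneg r (CoordMain_poleDiv_nonneg (K' := K') y)
  have hle : 0 ≤ Finsupp.mapDomain r (poleDiv (K := K') y) - poleDiv (K := k') (R.red y) := by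
    intro Q
    have e := DFunLike.congr_fun h1 Q
    have hZQ := hZ Q
    have hPQ := hP Q
    simp only [Finsupp.sub_apply, Finsupp.coe_zero, Pi.zero_apply, poleDiv_apply,
      Place.ord_inv, neg_neg] at e hZQ hPQ ⊢
    rcases le_total 0 (Q.ord (R.red y)) with h | h
    · rw [max_eq_right (by omega : -Q.ord (R.red y) ≤ 0)]
      omega
    · rw [max_eq_right h, max_eq_left (by omega : 0 ≤ -Q.ord (R.red y))] at e
      rw [max_eq_left (by omega : 0 ≤ -Q.ord (R.red y))]
      omega
  have h0 := eq_zero_of_nonneg_of_degree hle (by rw [map_sub, degree_mapDomain, hdeg, sub_self])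
  have h2 := sub_eq_zero.mp h0
  refine ⟨h2, ?_⟩
  rw [h2] at h1
  exact sub_left_injective h1

end CoordMainHelpers

theorem CoordHyp.CoordMain_red_j_ne (h : CoordHyp R r SS xe ρ j) : R.red j ≠ 0 := fun h0 =>
  h.j_nonconst ⟨0, by rw [h0, map_zero]⟩

open Classical in
theorem CoordMain_sum_single_apply (P₀ : Place k Eb → Place K E) (SS : Finset (Place k Eb))
    (P : Place K E) (hP : ∀ e ∈ SS, P ≠ P₀ e) :
    (∑ e ∈ SS, Finsupp.single (P₀ e) (1 : ℤ)) P = 0 := by
  rw [Finsupp.finsetSum_apply]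
  refine Finset.sum_eq_zero fun e he => ?_
  rw [Finsupp.single_apply, if_neg (fun h => hP e he h.symm)]

theorem CoordMain_sum_single_nonneg (P₀ : Place k Eb → Place K E) (SS : Finset (Place k Eb)) :
    0 ≤ ∑ e ∈ SS, Finsupp.single (P₀ e) (1 : ℤ) :=
  Finset.sum_nonneg fun _ _ => Finsupp.single_nonneg.mpr zero_le_one

/-- **(CO2)** on `C`: `x̄₁ = j̄ ^ a`.  (`R.red_add`, `R.red_smul`-type lemmas: `ρ Q` has reduction `0` since `ρ ∈ 𝔪_A`, `Q ∈ R.O`.) -/
theorem IsCoord.red_coord (h : CoordHyp R r SS xe ρ j) (c : IsCoord R r SS xe j a Q G₀ P₀) :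
    coordOf ρ j a Q ∈ R.O ∧ R.red (coordOf ρ j a Q) = R.red j ^ a := by
  obtain ⟨hρA, hρ0⟩ := Points_small h.ρ_small
  have hj : j ∈ R.O := R.mem_of_red_ne_zero h.CoordMain_red_j_ne
  have h1 : j ^ a ∈ R.O := R.O.pow_mem hj a
  have h2 : algebraMap K E ρ * Q ∈ R.O := R.O.mul_mem _ _ (R.algebraMap_mem _ hρA) c.Q_mem
  refine ⟨R.O.add_mem _ _ h1 h2, ?_⟩
  rw [coordOf, R.red_add h1 h2, R.red_pow, R.red_mul (R.algebraMap_mem _ hρA) c.Q_mem,
    R.red_algebraMap hρA, hρ0, map_zero, zero_mul, add_zero]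

/-- **(CO2')** `G₀ / ρ` is not integral on `C` (`R.red G₀ ≠ 0` because `ordₑ` of it is `1`... if `SS` is nonempty; we assume it). -/
theorem IsCoord.G_not_mem (h : CoordHyp R r SS xe ρ j) (c : IsCoord R r SS xe j a Q G₀ P₀)
    (hSS : SS.Nonempty) : (algebraMap K E ρ)⁻¹ * G₀ ∉ R.O := by
  intro hmem
  obtain ⟨hρA, hρ0⟩ := Points_small h.ρ_small
  obtain ⟨e, he⟩ := hSS
  have hρ : algebraMap K E ρ ≠ 0 := by simpa using h.ρ_ne
  have h1 : G₀ = algebraMap K E ρ * ((algebraMap K E ρ)⁻¹ * G₀) := by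
    rw [← mul_assoc, mul_inv_cancel₀ hρ, one_mul]
  have h2 : R.red G₀ = 0 := by
    rw [h1, R.red_mul (R.algebraMap_mem _ hρA) hmem, R.red_algebraMap hρA, hρ0, map_zero,
      zero_mul]
  have h3 := c.G_ord e he
  rw [h2, Place.ord_zero] at h3
  exact zero_ne_one h3

/-- **(CO3)** a point of the residue disc of a pole of `j̄` is not a zero of `j`, a point of the residue disc of a non-pole of `j̄` is not a pole of `j`:
`r_* (j)_∞ = (j̄)_∞`, `r_* (j)_0 = (j̄)_0` (`DR.Conc.Level_map_poleDiv`), all divisors effective (`Finsupp.mapDomain` of an effective divisor: value at `r P` is `≥` value at `P`). -/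
theorem CoordHyp.ord_j (hr : IsRedMap R r) (h : CoordHyp R r SS xe ρ j) (P : Place K E) :
    (0 ≤ (r P).ord (R.red j) → 0 ≤ P.ord j) ∧ ((r P).ord (R.red j) ≤ 0 → P.ord j ≤ 0) := by
  obtain ⟨h1, h2⟩ := CoordMain_map_poleDiv hr h.CoordMain_red_j_ne h.j_deg
  constructor
  · intro h0
    have h3 := Disc_le_mapDomain_apply r (poleDiv (K := K) j) (r P)
      (fun P' _ => CoordMain_poleDiv_nonneg j P') (a₀ := P) rfl
    rw [h1, poleDiv_apply, poleDiv_apply, max_eq_right (by omega : -(r P).ord (R.red j) ≤ 0)] at h3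
    have h4 := le_max_left (-P.ord j) 0
    omega
  · intro h0
    have h3 := Disc_le_mapDomain_apply r (poleDiv (K := K) j⁻¹) (r P)
      (fun P' _ => CoordMain_poleDiv_nonneg j⁻¹ P') (a₀ := P) rfl
    rw [h2, poleDiv_apply, poleDiv_apply, Place.ord_inv, Place.ord_inv, neg_neg, neg_neg,
      max_eq_right h0] at h3
    have h4 := le_max_left (P.ord j) 0
    omega

/-- **(CO4)** `f ∈ R.O` without pole on the residue disc of `e'` has a reduction which is regular at `e'`
(`hr.map_divOf`: `ord_{e'} f̄ = ∑_{r P = e'} ord_P f`; if `R.red f = 0` trivial). -/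
theorem ord_red_nonneg_of_mem_discRing (hr : IsRedMap R r) {e' : Place k Eb} {f : E}
    (hf : f ∈ discRing R r e') : 0 ≤ e'.ord (R.red f) := by
  by_cases h0 : R.red f = 0
  · rw [h0, Place.ord_zero]
  · exact hr.ord_red_nonneg h0 e' hf.2

/-- **(CO5)** the poles of `x₁`: every pole of `j` and every `P₀ e` is a pole of `x₁`.
PROOF. (a) `P = P₀ e`: `j` is regular at `P` (CO3 + `h.j_reg`).  `Q` has a pole at `P`: otherwise `Q ∈ discRing R r e` (by `c.Q_mem_L` its only possible poles are the poles of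
`j`, which are not in the disc by (CO3), and the `P₀ e'`, and `r (P₀ e') = e' ≠ e`), contradicting (CO4) and `c.Q_ord`.  So `ord_P x₁ = ord_P Q < 0` (`ord_add_eq_of_lt`).
(b) `ord_P j < 0`: `e' := r P` is a pole of `j̄` (CO3).  `u := Q / j ^ a ∈ R.O` (`j` is a unit of `R.O`: `R.red j ≠ 0`) is regular on the residue disc of `e'`: a point `P'` of this disc is not
a zero of `j` (CO3), is not a `P₀ e` (`e` is not a pole of `j̄`), and `ord_{P'} Q ≥ - a (j)_∞(P') = a ord_{P'} j` or `≥ 0`.  So `u ∈ discRing R r e'` and its value `γ` at `P` is in `A`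
(`Val.exists_value hr hu rfl`; it does not need `DiscHyp`), `1 + ρ u` has the value `1 + ρ γ ≠ 0` at `P` (`ρ γ ∈ 𝔪_A`), so `ord_P (1 + ρ u) = 0` and
`ord_P x₁ = ord_P (j ^ a (1 + ρ u)) = a ord_P j < 0`. -/
theorem IsCoord.ord_coord_neg (hr : IsRedMap R r) (h : CoordHyp R r SS xe ρ j)
    (c : IsCoord R r SS xe j a Q G₀ P₀) (P : Place K E)
    (hP : P.ord j < 0 ∨ ∃ e ∈ SS, P = P₀ e) : P.ord (coordOf ρ j a Q) < 0 := by
  have hj0 : j ≠ 0 := R.ne_zero_of_red_ne_zero h.CoordMain_red_j_ne
  have hρ : algebraMap K E ρ ≠ 0 := by simpa using h.ρ_ne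
  have hQL := mem_riemannRochSpace_iff.mp c.Q_mem_L
  rcases hP with hP | ⟨e, he, rfl⟩
  · -- (b) a pole of `j`
    have he' : (r P).ord (R.red j) < 0 := by
      by_contra hcon
      have := (h.ord_j hr P).1 (not_lt.mp hcon)
      omega
    have hjinv : j⁻¹ ∈ R.O := R.inv_mem_of_red_ne_zero h.CoordMain_red_j_ne
    set u : E := Q / j ^ a with hu
    have huO : u ∈ R.O := by
      rw [hu, div_eq_mul_inv, ← inv_pow]
      exact R.O.mul_mem _ _ c.Q_mem (R.O.pow_mem hjinv a)
    have hudisc : u ∈ discRing R r (r P) := by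
      refine ⟨huO, fun P' hP' => ?_⟩
      by_cases hQ0 : Q = 0
      · rw [hu, hQ0, zero_div, Place.ord_zero]
      have h1 : P'.ord j ≤ 0 := (h.ord_j hr P').2 (by rw [hP']; exact he'.le)
      have h2 : ∀ e ∈ SS, P' ≠ P₀ e := by
        rintro e he rfl
        have h3 := h.j_reg e he
        rw [← (c.origin e he).1, hP'] at h3
        omega
      have h4 := (hQL P').resolve_left hQ0
      rw [Finsupp.add_apply, CoordMain_sum_single_apply P₀ SS P' h2, Finsupp.smul_apply,
        poleDiv_apply, max_eq_left (by omega : 0 ≤ -P'.ord j), add_zero, nsmul_eq_mul] at h4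
      rw [hu, ord_div P' hQ0 (pow_ne_zero _ hj0), ord_pow]
      linarith
    obtain ⟨γ, hγA, hγ⟩ := exists_value hr hudisc rfl
    have hc : (1 : K) + ρ * γ ≠ 0 := by
      intro h0
      have h1 : ρ * γ = -1 := by linear_combination h0
      have h2 : R.A.valuation (ρ * γ) < 1 := by
        rw [map_mul]
        exact mul_lt_one_of_lt_of_le (R.A.mem_nonunits_iff.mp h.ρ_small)
          ((R.A.valuation_le_one_iff γ).mpr hγA)
      rw [h1, Valuation.map_neg, map_one] at h2
      exact lt_irrefl _ h2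
    have hc' : algebraMap K E (1 + ρ * γ) ≠ 0 := (map_ne_zero (algebraMap K E)).mpr hc
    have hone : P.ord (1 + algebraMap K E ρ * u) = 0 ∧ 1 + algebraMap K E ρ * u ≠ 0 := by
      have h1 : 1 + algebraMap K E ρ * u
          = algebraMap K E (1 + ρ * γ) + algebraMap K E ρ * (u - algebraMap K E γ) := by
        rw [map_add, map_mul, map_one]
        ring
      rcases hγ with hγ | hγ
      · rw [h1, hγ, sub_self, mul_zero, add_zero, ord_algebraMap]
        exact ⟨rfl, hc'⟩
      · have hne : u - algebraMap K E γ ≠ 0 := by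
          intro h0
          rw [h0, Place.ord_zero] at hγ
          exact lt_irrefl _ hγ
        have h2 : P.ord (algebraMap K E (1 + ρ * γ) + algebraMap K E ρ * (u - algebraMap K E γ))
            = P.ord (algebraMap K E (1 + ρ * γ)) := by
          apply ord_add_eq_of_lt P hc' (mul_ne_zero hρ hne)
          rw [ord_algebraMap, P.ord_mul hρ hne, ord_algebraMap, zero_add]
          exact hγ
        rw [ord_algebraMap] at h2
        refine ⟨by rw [h1, h2], fun h0 => ?_⟩
        -- a nonzero constant plus something vanishing at `P` is nonzero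
        rw [h1] at h0
        have h3 : algebraMap K E ρ * (u - algebraMap K E γ) = -algebraMap K E (1 + ρ * γ) := by
          linear_combination h0
        have h4 : P.ord (algebraMap K E ρ * (u - algebraMap K E γ)) = 0 := by
          rw [h3, ord_neg, ord_algebraMap]
        rw [P.ord_mul hρ hne, ord_algebraMap, zero_add] at h4
        omega
    have hx : coordOf ρ j a Q = j ^ a * (1 + algebraMap K E ρ * u) := by
      rw [coordOf, hu]
      field_simp
    rw [hx, P.ord_mul (pow_ne_zero _ hj0) hone.2, ord_pow, hone.1, add_zero]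
    have ha : (0 : ℤ) < a := by exact_mod_cast c.a_pos
    nlinarith
  · -- (a) the point `P₀ e`
    obtain ⟨hre, -⟩ := c.origin e he
    have hjreg : 0 ≤ (P₀ e).ord j := (h.ord_j hr (P₀ e)).1 (by rw [hre]; exact h.j_reg e he)
    have hQpole : (P₀ e).ord Q < 0 := by
      by_contra hcon
      have hcon' : 0 ≤ (P₀ e).ord Q := not_lt.mp hcon
      have hdisc : Q ∈ discRing R r e := by
        refine ⟨c.Q_mem, fun P' hP' => ?_⟩
        by_cases hPP : P' = P₀ e
        · rw [hPP]
          exact hcon'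
        by_cases hQ0 : Q = 0
        · rw [hQ0, Place.ord_zero]
        have h1 : 0 ≤ P'.ord j := (h.ord_j hr P').1 (by rw [hP']; exact h.j_reg e he)
        have h2 : ∀ e' ∈ SS, P' ≠ P₀ e' := by
          rintro e' he' h3
          apply hPP
          have h4 : e' = e := by rw [← (c.origin e' he').1, ← h3, hP']
          rw [h3, h4]
        have h4 := (hQL P').resolve_left hQ0
        rw [Finsupp.add_apply, CoordMain_sum_single_apply P₀ SS P' h2, Finsupp.smul_apply,
          poleDiv_apply, max_eq_right (by omega : -P'.ord j ≤ 0), add_zero, smul_zero,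
          neg_zero] at h4
        exact h4
      have h5 := ord_red_nonneg_of_mem_discRing hr hdisc
      rw [c.Q_ord e he] at h5
      omega
    have hQ0 : Q ≠ 0 := by
      intro h0
      rw [h0, Place.ord_zero] at hQpole
      exact lt_irrefl _ hQpole
    have h6 : (P₀ e).ord (algebraMap K E ρ * Q) = (P₀ e).ord Q := by
      rw [(P₀ e).ord_mul hρ hQ0, ord_algebraMap, zero_add]
    rw [coordOf, add_comm, ord_add_eq_of_lt (P₀ e) (mul_ne_zero hρ hQ0) (pow_ne_zero _ hj0)
      (by rw [h6, ord_pow]; have ha : (0 : ℤ) ≤ a := Int.natCast_nonneg a; nlinarith), h6]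
    exact hQpole

/-- **(CO6)** functions whose poles are poles of `j` or points `P₀ e` are regular outside the poles of `x₁` (`DR.Abs.exists_mem_L_poleDiv_iff`, (CO5)). -/
theorem IsCoord.exists_mem_L (hr : IsRedMap R r) (h : CoordHyp R r SS xe ρ j)
    (c : IsCoord R r SS xe j a Q G₀ P₀) {f : E}
    (hf : ∀ P : Place K E, 0 ≤ P.ord j → (∀ e ∈ SS, P ≠ P₀ e) → 0 ≤ P.ord f) :
    ∃ n : ℕ, f ∈ riemannRochSpace (n • poleDiv (K := K) (coordOf ρ j a Q)) := by
  rw [Fermat.Agent.DR.Abs.exists_mem_L_poleDiv_iff]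
  intro P hP
  apply hf P
  · by_contra hcon
    have := c.ord_coord_neg hr h P (Or.inl (not_le.mp hcon))
    omega
  · rintro e he rfl
    have := c.ord_coord_neg hr h (P₀ e) (Or.inr ⟨e, he, rfl⟩)
    omega

/-- (CO6) for `Q`, `G₀`, `j`. -/
theorem IsCoord.exists_mem_L_Q (hr : IsRedMap R r) (h : CoordHyp R r SS xe ρ j)
    (c : IsCoord R r SS xe j a Q G₀ P₀) :
    (∃ n : ℕ, Q ∈ riemannRochSpace (n • poleDiv (K := K) (coordOf ρ j a Q))) ∧
    (∃ n : ℕ, G₀ ∈ riemannRochSpace (n • poleDiv (K := K) (coordOf ρ j a Q))) ∧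
    (∃ n : ℕ, j ∈ riemannRochSpace (n • poleDiv (K := K) (coordOf ρ j a Q))) := by
  refine ⟨c.exists_mem_L hr h fun P hPj hP => ?_, c.exists_mem_L hr h fun P hPj hP => ?_,
    c.exists_mem_L hr h fun P hPj _ => hPj⟩
  · rcases mem_riemannRochSpace_iff.mp c.Q_mem_L P with h0 | h0
    · rw [h0, Place.ord_zero]
    · rw [Finsupp.add_apply, CoordMain_sum_single_apply P₀ SS P hP, Finsupp.smul_apply,
        poleDiv_apply, max_eq_right (by omega : -P.ord j ≤ 0), add_zero, smul_zero,
        neg_zero] at h0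
      exact h0
  · rcases mem_riemannRochSpace_iff.mp c.G_mem_L P with h0 | h0
    · rw [h0, Place.ord_zero]
    · rw [Finsupp.sub_apply, CoordMain_sum_single_apply P₀ SS P hP, Finsupp.smul_apply,
        poleDiv_apply, max_eq_right (by omega : -P.ord j ≤ 0), sub_zero, smul_zero,
        neg_zero] at h0
      exact h0

/-- **(CO7)** `deg (x₁)_∞ ≤ a deg (j)_∞ + #SS`  (`x₁ ∈ L(a (j)_∞ + ∑ P₀ e)`, so `(x₁)_∞ ≤` this effective divisor; `DR.Abs.poleBound_mem_L_iff`, degree is monotone,
`Divisor.degree_single`, `deg_eq_one`). -/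
theorem IsCoord.degree_poleDiv_le (c : IsCoord R r SS xe j a Q G₀ P₀) :
    Divisor.degree (poleDiv (K := K) (coordOf ρ j a Q)) ≤
      a * Divisor.degree (poleDiv (K := K) j) + SS.card := by
  set D : Divisor K E := a • poleDiv (K := K) j + ∑ e ∈ SS, Finsupp.single (P₀ e) (1 : ℤ) with hD
  have hD0 : 0 ≤ D :=
    add_nonneg (nsmul_nonneg (CoordMain_poleDiv_nonneg j) a) (CoordMain_sum_single_nonneg P₀ SS)
  have hx : coordOf ρ j a Q ∈ riemannRochSpace D := by
    rw [coordOf]
    refine Submodule.add_mem _ ?_ ?_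
    · exact Fermat.Agent.DR.Abs.L_mono
        (le_add_of_nonneg_right (CoordMain_sum_single_nonneg P₀ SS))
        (Fermat.Agent.DR.Abs.pow_mem_L_poleDiv j a)
    · rw [← Algebra.smul_def]
      exact Submodule.smul_mem _ _ c.Q_mem_L
  have hle : poleDiv (K := K) (coordOf ρ j a Q) ≤ D := by
    intro P
    rw [poleDiv_apply]
    refine max_le ?_ (hD0 P)
    rcases mem_riemannRochSpace_iff.mp hx P with h0 | h0
    · rw [h0, Place.ord_zero, neg_zero]
      exact hD0 P
    · omega
  refine (degree_mono hle).trans (le_of_eq ?_)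
  rw [hD, map_add, map_nsmul, map_sum, nsmul_eq_mul]
  congr 1
  simp only [Divisor.degree_single, deg_eq_one, Nat.cast_one, mul_one, Finset.sum_const,
    nsmul_eq_mul]

end Fermat.Agent.S36.Geo
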